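import Fermat.Agent.FF4.KV4.KummerSpan
import Fermat.Agent.FF4.S40Skeleton

/-!
# PROGRAMME II, kernel K-V, leaves KV-4 + KV-5: SEAM TEST against helper4's skeleton vocabulary

`FF4/S40Skeleton.lean` vendored byte-identically from origin/helper4 (@95143af6 = 117387e0).

* `isNew_of_le_kummerSpan` : a pack `P : VPack W p (M' * p)` whose `V` lies in the `G_ℚ`-span of the
  Kummer image at the level `M' p` is `p`-new as soon as there is an old-killer `t` at the level `M'`;
* `mem_new_of_mem_kummerSpan` : the same for one eigenvector.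
-/

set_option autoImplicit false
set_option linter.unusedSectionVars false
set_option linter.unusedVariables false
set_option synthInstance.maxHeartbeats 400000
set_option maxHeartbeats 1000000

noncomputable section

namespace Fermat.Agent.FF4.KV4

open ModularCurve WeierstrassCurve
open Fermat.Agent Fermat.Agent.Jac Fermat.Agent.BR Fermat.Agent.BR2 Fermat.Agent.FF4.S40Skeleton

variable {W : WeierstrassCurve ℤ} {p M' : ℕ} [NeZero M'] [NeZero p] [NeZero (M' * p)]

/-- one eigenvector of the span is `p`-new -/
theorem mem_new_of_mem_kummerSpan (hp : p.Prime) (hpM' : ¬ p ∣ M') {t : HeckeAlg}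
    (ht : IsOldKiller W p M' t) {v : JZero (M' * p)} (hv : v ∈ kummerSpan M' p hp hpM')
    (heig : ∀ l : Nat.Primes, Good W p (M' * p) l →
      heckeOperatorBar (M' * p) l v = (W.apOfModel l) • v) :
    LevelTransfer.alphaDown M' p v = 0 ∧ LevelMaps.betaDown M' p v = 0 :=
  new_of_mem_kummerSpan M' p hp hpM' {l : Nat.Primes | Good W p (M' * p) l}
    (fun l hl => hl.2.2) (fun l => W.apOfModel l) ht.1 ht.2.1 ht.2.2 hv
    (fun l hl => heig l hl)

/-- **KV-4 + KV-5 in the skeleton's vocabulary**: a pack inside the span is `p`-new. -/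
theorem isNew_of_le_kummerSpan (hp : p.Prime) (hpM' : ¬ p ∣ M') {t : HeckeAlg}
    (ht : IsOldKiller W p M' t) (P : VPack W p (M' * p))
    (hle : P.V ≤ kummerSpan M' p hp hpM') : P.IsNew :=
  fun v hv => mem_new_of_mem_kummerSpan hp hpM' ht (hle hv) (fun l hl => P.eigen l hl v hv)

end Fermat.Agent.FF4.KV4
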