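import Mathlib
import Fermat.Agent.BR2.E7Plug
import Fermat.Agent.BR2.LevelSquares
import Fermat.Agent.LR.TLamComm
import Fermat.Agent.Jac.LamAnn
import Fermat.Agent.Jac.HeckeCommUncond
import Fermat.Agent.Jac.HeckeGalois
import Fermat.Agent.FF2.G0b.FiniteTorsion

/-!
# PROGRAMME II, kernel K-V, leaves KV-4 + KV-5 (helper9): the span trick, `p`-newness

`M` prime to the prime `q` (in the application `M = M'`, `q = p`).  `rho := E7Plug.rhoE M q hq hqM q`
is the landed Kummer map `Λ(M q) →+ J₀(M q)(ℚ̄)` with kernel `q Λ`, equivariant for all `T_l`, and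
intertwining `E_α^Λ`, `E_β^Λ` with `Ealpha = α^* α_*`, `Ebeta = β^* β_*`.

* `kummerSpan M q hq hqM` : the `G_ℚ`-span of the image of `rho` in `J₀(M q)(ℚ̄)`;
  `rho_mem_kummerSpan`, `smul_mem_kummerSpan` (Galois stable), `hecke_mem_kummerSpan` (stable under
  every `heckeOperatorBar (M q) l`), `nsmul_eq_zero_of_mem_kummerSpan` (killed by `q`),
  `finite_kummerSpan`, `rho_eq_zero_iff`, `rho_TLam`;
* `Ealpha_Ebeta_evalBar_eq_zero` : a Hecke polynomial `t` in the `T_l`, `l ≠ q`, killing `Λ(M)`: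
  `Ealpha (t v) = 0 = Ebeta (t v)` for every `v` in the span;
* `evalBar_eq_smul_of_eigen` : on an eigenvector `t` acts through `MvPolynomial.eval a t`;
* **`new_of_mem_kummerSpan`** : an eigenvector `v` of the span, for the `T_l`, `l ∈ G` (`G` a set of
  primes `≠ q`), with eigenvalues `a l`, and `t ∈ ℤ[T_l : l ∈ G]` killing `Λ(M)` with
  `q ∤ t(a)`: `α_* v = 0` and `β_* v = 0`.

(The naive statement "`t` kills `J₀(M)[q]`" would need the surjectivity of the Kummer map onto the
`q`-torsion, i.e. `#J₀(M)[q] ≤ q^{2g}`, which is not available.)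
-/

set_option autoImplicit false
set_option linter.unusedSectionVars false
set_option linter.unusedVariables false
set_option linter.style.haveILetI false
set_option synthInstance.maxHeartbeats 400000
set_option maxHeartbeats 1000000

noncomputable section

namespace Fermat.Agent.FF4.KV4

open ModularCurve AlgebraicCurve
open Fermat.Agent Fermat.Agent.Jac Fermat.Agent.BR Fermat.Agent.BR2 Fermat.Agent.Hecke
open Fermat.Agent.LR.DegMain Fermat.Agent.BR2.DegTransfer

local notation "GQ" => (AlgebraicClosure ℚ ≃ₐ[ℚ] AlgebraicClosure ℚ)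

/-! ### Generic: polynomials supported on a set of primes and intertwining maps -/

section Generic

variable {V V' : Type*} [AddCommGroup V] [AddCommGroup V']
  {T : Nat.Primes → Module.End ℤ V} {T' : Nat.Primes → Module.End ℤ V'}

/-- an additive map intertwining the generators `T l`, `l ∈ G`, intertwines the Hecke polynomials
supported on `G` -/
theorem map_heckeEvalOf_of_supported (hT : ∀ l l', Commute (T l) (T l'))
    (hT' : ∀ l l', Commute (T' l) (T' l')) (G : Set Nat.Primes) (f : V →+ V')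
    (hf : ∀ l ∈ G, ∀ x, f (T l x) = T' l (f x)) {t : HeckeAlg}
    (ht : t ∈ MvPolynomial.supported ℤ G) (x : V) :
    f (heckeEvalOf T hT t x) = heckeEvalOf T' hT' t (f x) := by
  rw [MvPolynomial.supported_eq_adjoin_X] at ht
  induction ht using Algebra.adjoin_induction generalizing x with
  | mem y hy =>
    obtain ⟨l, hl, rfl⟩ := hy
    have hX : (MvPolynomial.X l : HeckeAlg) = heckeGen l := rfl
    rw [hX, heckeEvalOf_heckeGen, heckeEvalOf_heckeGen]
    exact hf l hl x
  | algebraMap r =>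
    rw [MvPolynomial.algebraMap_eq, heckeEvalOf_C, heckeEvalOf_C]
    simp
  | add y z hy hz ihy ihz =>
    rw [map_add, map_add, LinearMap.add_apply, LinearMap.add_apply, map_add, ihy, ihz]
  | mul y z hy hz ihy ihz =>
    rw [map_mul, map_mul, Module.End.mul_apply, Module.End.mul_apply, ihy, ihz]

end Generic

/-! ### Hecke polynomials on `J₀(N)(ℚ̄)` -/

section Bar

variable (N : ℕ) [NeZero N]

/-- the action of a Hecke polynomial on `J₀(N)(ℚ̄)` -/
abbrev evalBar (t : HeckeAlg) : Module.End ℤ (JZero N) :=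
  heckeEvalBar (heckeOperatorsCommuteBar N) t

/-- the action of a Hecke polynomial on `Λ(N)` -/
abbrev evalLam (t : HeckeAlg) : Module.End ℤ (Lam N) :=
  heckeEvalOf (TLam N) (Fermat.Agent.LR.TLamComm.TLam_commute N) t

/-- Hecke polynomials commute with the Galois action -/
theorem evalBar_smul (t : HeckeAlg) (σ : GQ) (x : JZero N) :
    evalBar N t (σ • x) = σ • evalBar N t x := by
  letI := heckeModuleBar N
  haveI := smulCommClass_galois_hecke (heckeOperatorsCommuteBar N)
  have h := smul_comm σ t x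
  rw [heckeModuleBar_smul_def (heckeOperatorsCommuteBar N),
    heckeModuleBar_smul_def (heckeOperatorsCommuteBar N)] at h
  exact h.symm

/-- on an eigenvector for the `T_l`, `l ∈ G`, a Hecke polynomial supported on `G` acts through its
value at the eigenvalues -/
theorem evalBar_eq_smul_of_eigen (G : Set Nat.Primes) (a : Nat.Primes → ℤ) {t : HeckeAlg}
    (ht : t ∈ MvPolynomial.supported ℤ G) (v : JZero N)
    (heig : ∀ l ∈ G, heckeOperatorBar N l v = a l • v) :
    evalBar N t v = MvPolynomial.eval a t • v := by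
  rw [MvPolynomial.supported_eq_adjoin_X] at ht
  induction ht using Algebra.adjoin_induction with
  | mem y hy =>
    obtain ⟨l, hl, rfl⟩ := hy
    have hX : (MvPolynomial.X l : HeckeAlg) = heckeGen l := rfl
    rw [MvPolynomial.eval_X, hX, evalBar, heckeEvalBar_heckeGen]
    exact heig l hl
  | algebraMap r =>
    rw [MvPolynomial.algebraMap_eq, MvPolynomial.eval_C, evalBar, heckeEvalBar_C,
      Module.End.intCast_apply]
  | add y z hy hz ihy ihz =>
    have e1 : evalBar N (y + z) v = evalBar N y v + evalBar N z v := by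
      rw [evalBar, map_add, LinearMap.add_apply]
    rw [e1, map_add, add_zsmul, ihy, ihz]
  | mul y z hy hz ihy ihz =>
    have e1 : evalBar N (y * z) v = evalBar N y (evalBar N z v) := by
      rw [evalBar, map_mul, Module.End.mul_apply]
    rw [e1, map_mul, ihz, map_zsmul, ihy, ← mul_zsmul, mul_comm]

end Bar

/-! ### The span of the Kummer image -/

section Span

variable (M q : ℕ) [NeZero M] [NeZero q] (hq : q.Prime) (hqM : ¬ q ∣ M)

/-- the Kummer map `Λ(M q) →+ J₀(M q)(ℚ̄)` with kernel `q Λ` -/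
abbrev rho : ↥(Lam (M * q)) →+ JZero (M * q) := E7Plug.rhoE M q hq hqM q

theorem rho_eq_zero_iff (x : ↥(Lam (M * q))) :
    rho M q hq hqM x = 0 ↔ ∃ y : ↥(Lam (M * q)), x = q • y :=
  (E7Plug.rhoE_spec M q hq hqM hq.pos).1 x

theorem rho_TLam (l : Nat.Primes) (x : ↥(Lam (M * q))) :
    rho M q hq hqM (TLam (M * q) l x) = heckeOperatorBar (M * q) l (rho M q hq hqM x) :=
  (E7Plug.rhoE_spec M q hq hqM hq.pos).2.1 l x

theorem rho_EalphaLam (x : ↥(Lam (M * q))) :
    rho M q hq hqM (EalphaLam M q hq hqM x) = SpecDeg.Ealpha M q (rho M q hq hqM x) :=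
  (E7Plug.rhoE_spec M q hq hqM hq.pos).2.2.1 x

theorem rho_EbetaLam (x : ↥(Lam (M * q))) :
    rho M q hq hqM (EbetaLam M q hq hqM x) = SpecDeg.Ebeta M q (rho M q hq hqM x) :=
  (E7Plug.rhoE_spec M q hq hqM hq.pos).2.2.2 x

theorem nsmul_rho (x : ↥(Lam (M * q))) : q • rho M q hq hqM x = 0 := by
  rw [← map_nsmul]
  exact (rho_eq_zero_iff M q hq hqM _).mpr ⟨x, rfl⟩

/-- `rho` intertwines Hecke polynomials -/
theorem rho_evalLam (t : HeckeAlg) (x : ↥(Lam (M * q))) :
    rho M q hq hqM (evalLam (M * q) t x) = evalBar (M * q) t (rho M q hq hqM x) := by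
  rw [evalLam, map_heckeEvalOf_eq_smul_heckeModuleBar (heckeOperatorsCommuteBar (M * q))
    (Fermat.Agent.LR.TLamComm.TLam_commute (M * q)) (rho M q hq hqM)
    (fun l x => rho_TLam M q hq hqM l x) t x,
    heckeModuleBar_smul_def (heckeOperatorsCommuteBar (M * q))]

/-- **the `G_ℚ`-span of the Kummer image** in `J₀(M q)(ℚ̄)` -/
def kummerSpan : AddSubgroup (JZero (M * q)) :=
  AddSubgroup.closure {z | ∃ (σ : GQ) (x : ↥(Lam (M * q))), z = σ • rho M q hq hqM x}

theorem smul_rho_mem_kummerSpan (σ : GQ) (x : ↥(Lam (M * q))) :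
    σ • rho M q hq hqM x ∈ kummerSpan M q hq hqM :=
  AddSubgroup.subset_closure ⟨σ, x, rfl⟩

theorem rho_mem_kummerSpan (x : ↥(Lam (M * q))) :
    rho M q hq hqM x ∈ kummerSpan M q hq hqM := by
  have h := smul_rho_mem_kummerSpan M q hq hqM 1 x
  rwa [one_smul] at h

/-- an additive map sending the generators `σ • rho x` into a subgroup `K` sends the span into
`K` -/
theorem map_mem_of_mem_kummerSpan {Y : Type*} [AddCommGroup Y] (f : JZero (M * q) →+ Y)
    (K : AddSubgroup Y)
    (hgen : ∀ (σ : GQ) (x : ↥(Lam (M * q))), f (σ • rho M q hq hqM x) ∈ K)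
    {v : JZero (M * q)} (hv : v ∈ kummerSpan M q hq hqM) : f v ∈ K := by
  have h : kummerSpan M q hq hqM ≤ K.comap f := by
    unfold kummerSpan
    rw [AddSubgroup.closure_le]
    rintro _ ⟨σ, x, rfl⟩
    exact hgen σ x
  exact h hv

/-- an additive map killing the generators `σ • rho x` kills the span -/
theorem map_eq_zero_of_mem_kummerSpan {Y : Type*} [AddCommGroup Y] (f : JZero (M * q) →+ Y)
    (hgen : ∀ (σ : GQ) (x : ↥(Lam (M * q))), f (σ • rho M q hq hqM x) = 0)
    {v : JZero (M * q)} (hv : v ∈ kummerSpan M q hq hqM) : f v = 0 := by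
  have h := map_mem_of_mem_kummerSpan M q hq hqM f ⊥
    (fun σ x => (AddSubgroup.mem_bot).mpr (hgen σ x)) hv
  exact (AddSubgroup.mem_bot).mp h

/-- the span is Galois stable -/
theorem smul_mem_kummerSpan (τ : GQ) {v : JZero (M * q)} (hv : v ∈ kummerSpan M q hq hqM) :
    τ • v ∈ kummerSpan M q hq hqM := by
  refine map_mem_of_mem_kummerSpan M q hq hqM
    (DistribSMul.toAddMonoidHom (JZero (M * q)) τ) (kummerSpan M q hq hqM)
    (fun σ x => ?_) hv
  show τ • (σ • rho M q hq hqM x) ∈ kummerSpan M q hq hqM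
  rw [← mul_smul]
  exact smul_rho_mem_kummerSpan M q hq hqM (τ * σ) x

/-- the span is stable under every Hecke operator -/
theorem hecke_mem_kummerSpan (l : Nat.Primes) {v : JZero (M * q)}
    (hv : v ∈ kummerSpan M q hq hqM) :
    heckeOperatorBar (M * q) l v ∈ kummerSpan M q hq hqM := by
  refine map_mem_of_mem_kummerSpan M q hq hqM
    (heckeOperatorBar (M * q) l).toAddMonoidHom (kummerSpan M q hq hqM)
    (fun σ x => ?_) hv
  show heckeOperatorBar (M * q) l (σ • rho M q hq hqM x) ∈ kummerSpan M q hq hqM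
  rw [heckeOperatorBar_galois_smul, ← rho_TLam]
  exact smul_rho_mem_kummerSpan M q hq hqM σ _

/-- the span is killed by `q` -/
theorem nsmul_eq_zero_of_mem_kummerSpan {v : JZero (M * q)} (hv : v ∈ kummerSpan M q hq hqM) :
    q • v = 0 := by
  refine map_eq_zero_of_mem_kummerSpan M q hq hqM (nsmulAddMonoidHom q) (fun σ x => ?_) hv
  show q • (σ • rho M q hq hqM x) = 0
  have h1 : q • (σ • rho M q hq hqM x) = σ • (q • rho M q hq hqM x) :=
    (map_nsmul (DistribSMul.toAddMonoidHom (JZero (M * q)) σ) q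
      (rho M q hq hqM x)).symm
  rw [h1, nsmul_rho]
  exact smul_zero (A := JZero (M * q)) σ

/-- the span is finite -/
theorem finite_kummerSpan : Finite ↥(kummerSpan M q hq hqM) := by
  haveI := Fermat.Agent.FF2.G0b.finite_torsionBy_JZero (M * q) q hq.pos
  refine Finite.of_injective
    (fun v : ↥(kummerSpan M q hq hqM) =>
      (⟨(v : JZero (M * q)), by
        rw [Submodule.mem_torsionBy_iff, natCast_zsmul]
        exact nsmul_eq_zero_of_mem_kummerSpan M q hq hqM v.2⟩ :
        ↥(Submodule.torsionBy ℤ (JZero (M * q)) (q : ℤ)))) ?_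
  intro u v huv
  exact Subtype.ext (congrArg (fun z : ↥(Submodule.torsionBy ℤ (JZero (M * q)) (q : ℤ)) =>
    (z : JZero (M * q))) huv)

end Span

/-! ### The vanishing and the `q`-newness -/

section New

variable (M q : ℕ) [NeZero M] [NeZero q] (hq : q.Prime) (hqM : ¬ q ∣ M)

/-- the two corestrictions intertwine the Hecke polynomials in the `T_l`, `l ≠ q` -/
theorem B1L_evalLam {t : HeckeAlg}
    (ht : t ∈ MvPolynomial.supported ℤ {l : Nat.Primes | (l : ℕ) ≠ q}) (x : ↥(Lam (M * q))) :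
    B1L M q hq hqM (evalLam (M * q) t x) = evalLam M t (B1L M q hq hqM x) := by
  have h : ∀ l ∈ {l : Nat.Primes | (l : ℕ) ≠ q}, ∀ v : ↥(Lam (M * q)),
      B1L M q hq hqM (TLam (M * q) l v) = TLam M l (B1L M q hq hqM v) :=
    fun l hl v => B1L_TLam M q hq hqM l hl v
  generalize B1L M q hq hqM = f at h ⊢
  exact map_heckeEvalOf_of_supported _ _ _ f.toAddMonoidHom h ht x

theorem B2L_evalLam {t : HeckeAlg}
    (ht : t ∈ MvPolynomial.supported ℤ {l : Nat.Primes | (l : ℕ) ≠ q}) (x : ↥(Lam (M * q))) :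
    B2L M q hq hqM (evalLam (M * q) t x) = evalLam M t (B2L M q hq hqM x) := by
  have h : ∀ l ∈ {l : Nat.Primes | (l : ℕ) ≠ q}, ∀ v : ↥(Lam (M * q)),
      B2L M q hq hqM (TLam (M * q) l v) = TLam M l (B2L M q hq hqM v) :=
    fun l hl v => B2L_TLam M q hq hqM l hl v
  generalize B2L M q hq hqM = f at h ⊢
  exact map_heckeEvalOf_of_supported _ _ _ f.toAddMonoidHom h ht x

/-- **the vanishing on the span**: a Hecke polynomial in the `T_l`, `l ≠ q`, which kills `Λ(M)`:
`E_α ∘ t = 0 = E_β ∘ t` on the `G_ℚ`-span of the Kummer image at the level `M q`. -/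
theorem Ealpha_Ebeta_evalBar_eq_zero {t : HeckeAlg}
    (ht : t ∈ MvPolynomial.supported ℤ {l : Nat.Primes | (l : ℕ) ≠ q})
    (hkill : ∀ y : ↥(Lam M), evalLam M t y = 0)
    {v : JZero (M * q)} (hv : v ∈ kummerSpan M q hq hqM) :
    SpecDeg.Ealpha M q (evalBar (M * q) t v) = 0 ∧ SpecDeg.Ebeta M q (evalBar (M * q) t v) = 0 := by
  have hkill' : evalLam M t = 0 := LinearMap.ext hkill
  constructor
  · refine map_eq_zero_of_mem_kummerSpan M q hq hqM
      ((SpecDeg.Ealpha M q).comp (evalBar (M * q) t).toAddMonoidHom) (fun σ x => ?_) hv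
    show SpecDeg.Ealpha M q (evalBar (M * q) t (σ • rho M q hq hqM x)) = 0
    rw [evalBar_smul, E7Plug.Ealpha_smul, ← rho_evalLam, ← rho_EalphaLam,
      EalphaLam_comp_eq_zero M q hq hqM (evalLam (M * q) t) (evalLam M t)
        (fun y => B1L_evalLam M q hq hqM ht y) hkill' x, map_zero]
    exact smul_zero (A := JZero (M * q)) σ
  · refine map_eq_zero_of_mem_kummerSpan M q hq hqM
      ((SpecDeg.Ebeta M q).comp (evalBar (M * q) t).toAddMonoidHom) (fun σ x => ?_) hv
    show SpecDeg.Ebeta M q (evalBar (M * q) t (σ • rho M q hq hqM x)) = 0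
    rw [evalBar_smul, E7Plug.Ebeta_smul, ← rho_evalLam, ← rho_EbetaLam,
      EbetaLam_comp_eq_zero M q hq hqM (evalLam (M * q) t) (evalLam M t)
        (fun y => B2L_evalLam M q hq hqM ht y) hkill' x, map_zero]
    exact smul_zero (A := JZero (M * q)) σ

/-- in an additive group, `c • x = 0`, `q • x = 0` and `q ∤ c` (`q` prime) give `x = 0` -/
theorem eq_zero_of_zsmul_of_nsmul {X : Type*} [AddCommGroup X] {q : ℕ} (hq : q.Prime) {c : ℤ}
    (hc : ¬ (q : ℤ) ∣ c) {x : X} (h1 : c • x = 0) (h2 : q • x = 0) : x = 0 := by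
  have hcop : IsCoprime c (q : ℤ) :=
    ((Nat.prime_iff_prime_int.mp hq).coprime_iff_not_dvd.mpr hc).symm
  obtain ⟨a, b, hab⟩ := hcop
  have h3 : (a * c + b * (q : ℤ)) • x = 0 := by
    rw [add_zsmul, mul_zsmul, mul_zsmul, h1, natCast_zsmul, h2, zsmul_zero, zsmul_zero, add_zero]
  rwa [hab, one_zsmul] at h3

/-- **KV-4 + KV-5: `q`-newness of the eigenvectors of the span.**  `G` a set of primes `≠ q`,
`t ∈ ℤ[T_l : l ∈ G]` killing `Λ(M)` with `q ∤ t(a)`; an eigenvector `v` (eigenvalues `a l`, `l ∈ G`)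
in the `G_ℚ`-span of the Kummer image at the level `M q` satisfies `α_* v = 0 = β_* v`. -/
theorem new_of_mem_kummerSpan (G : Set Nat.Primes) (hG : ∀ l ∈ G, ((l : Nat.Primes) : ℕ) ≠ q)
    (a : Nat.Primes → ℤ) {t : HeckeAlg} (ht : t ∈ MvPolynomial.supported ℤ G)
    (hkill : ∀ y : ↥(Lam M),
      heckeEvalOf (TLam M) (Fermat.Agent.LR.TLamComm.TLam_commute M) t y = 0)
    (hθ : ¬ (q : ℤ) ∣ MvPolynomial.eval a t)
    {v : JZero (M * q)} (hv : v ∈ kummerSpan M q hq hqM)
    (heig : ∀ l ∈ G, heckeOperatorBar (M * q) l v = a l • v) :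
    LevelTransfer.alphaDown M q v = 0 ∧ LevelMaps.betaDown M q v = 0 := by
  have ht' : t ∈ MvPolynomial.supported ℤ {l : Nat.Primes | (l : ℕ) ≠ q} :=
    MvPolynomial.supported_mono (fun l hl => hG l hl) ht
  obtain ⟨h1, h2⟩ := Ealpha_Ebeta_evalBar_eq_zero M q hq hqM ht' hkill hv
  rw [evalBar_eq_smul_of_eigen (M * q) G a ht v heig, map_zsmul] at h1 h2
  have hqv : q • v = 0 := nsmul_eq_zero_of_mem_kummerSpan M q hq hqM hv
  have hα : LevelSquares.Ealpha M q v = 0 := by
    refine eq_zero_of_zsmul_of_nsmul hq hθ h1 ?_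
    show q • SpecDeg.Ealpha M q v = 0
    rw [← map_nsmul, hqv, map_zero]
  have hβ : LevelSquares.Ebeta M q v = 0 := by
    refine eq_zero_of_zsmul_of_nsmul hq hθ h2 ?_
    show q • SpecDeg.Ebeta M q v = 0
    rw [← map_nsmul, hqv, map_zero]
  have hdeg : ¬ (q : ℤ) ∣ ((LevelTransfer.alphaDeg M q : ℕ) : ℤ) := by
    rw [LevelSquares.alphaDeg_eq M q hq hqM]
    intro h
    have h3 : q ∣ q + 1 := Int.natCast_dvd_natCast.mp h
    have h4 : q ∣ 1 := (Nat.dvd_add_right (dvd_refl q)).mp h3
    exact hq.one_lt.ne' (Nat.dvd_one.mp h4)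
  constructor
  · refine eq_zero_of_zsmul_of_nsmul hq hdeg ?_ ?_
    · rw [natCast_zsmul]
      exact LevelSquares.alphaDeg_smul_alphaDown_eq_zero M q hα
    · rw [← map_nsmul, hqv, map_zero]
  · refine eq_zero_of_zsmul_of_nsmul hq hdeg ?_ ?_
    · rw [natCast_zsmul]
      exact LevelSquares.alphaDeg_smul_betaDown_eq_zero M q hβ
    · rw [← map_nsmul, hqv, map_zero]

end New

end Fermat.Agent.FF4.KV4
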